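import Fermat.Agent.S38T.IA.Hecke.H183.CmpWireIA
import Fermat.Agent.S38T.IA.Hecke.H81.IADictT
import Fermat.Agent.S38T.H227.IADictR

/-!
# Row S59, cell LO-IA (B2), HECKE-T: the leaf IA-CMP-T, plugged  (helper183)

`t`-generic twin of the leaf IA-CMP of row HARD (conventions of helper3's `S38T` specs):

    iaCmp_of_free_T : IAFreeStatement_T → G4Statement → S34Shape494 → S30Statement →
        (∀ M, HasIntegralStructure M 2) → S36Statement → IACmpStatement_T

= `iaCmp_of_dict_T` (`CmpWireIA.lean`, twin of `iaCmp_of_dict`) with the dictionary leaves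
`H81.iaDictT_T` (helper81) and `H227.iaDictR227_T` (helper227) plugged in.  The only open input
is IA-FREE-T (`IAFreeStatement_T`, every odd `p`).
-/

set_option autoImplicit false

namespace Fermat.Agent.S38.IA.Hecke.H183

open Fermat.Agent.S38.IA Fermat.Agent.S38.IA.Hecke

/-- **The leaf IA-CMP-T from IA-FREE-T** (dictionary and Galois half plugged). -/
theorem iaCmp_of_free_T (hFree : IAFreeStatement_T)
    (hG4 : Fermat.Agent.S59.G4.G4Statement)
    (h34 : Fermat.Agent.S59.TW.H494.S34Shape494)
    (h30 : Fermat.Agent.S31.S30Statement)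
    (hIS : ∀ (M : ℕ) [NeZero M], CuspForm.HasIntegralStructure M 2)
    (h36 : Fermat.Agent.S58.S36Statement) : IACmpStatement_T :=
  iaCmp_of_dict_T hFree Fermat.Agent.S38.IA.Hecke.H81.iaDictT_T
    Fermat.Agent.S38.H227.iaDictR227_T hG4 h34 h30 hIS h36

end Fermat.Agent.S38.IA.Hecke.H183
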