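import Fermat.Agent.S38T.IA.Hecke.Spec3
import Fermat.Agent.S38T.IA.Hecke.H183.CmpSpecIA

/-!
# Row HARD, cell HECKE, layer 4: the Galois leaves of IA-CMP from their form for a general `Σ`
(helper183)

* `iaGalT_of_sig : GalTSigStatement → IAGalTStatement`, `iaGalR_of_sig`;
* `galT314_of_sig : GalTSigStatement → S59.TW.H314.GalTStatement`, `galR314_of_sig`
  (the leaves of the cell TW of row S59 are the case `Σ = Smin ∪ Q`).
-/

set_option autoImplicit false
set_option linter.style.haveILetI false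
set_option linter.unusedSectionVars false
set_option linter.unusedVariables false

open Polynomial IsLocalRing CongruenceSubgroup
open scoped MatrixGroups

namespace Fermat.Agent.S38.IA.Hecke.H183

variable {ty : Fermat.Agent.S59.Arch.PType}

open Fermat.Agent.S59.Arch Fermat.Agent.S59.TW.H959 Fermat.Agent.S59.TW Fermat.Agent.S59.H765
open Fermat.Agent.S59.TW.H653 Fermat.Agent.S59.TW.Aut
open Fermat.Agent.S38.IA Fermat.Agent.S38.IA.Hecke
open CuspForm

/-! ## The Galois leaves from their form for a general `Σ` -/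

section Sig

variable {p : ℕ} {k : Type} [Field k] {ρbar : ResidualGaloisRep k} {Smin Piv : Finset ℕ}
  {n r : ℕ} {qv : Fin r → ℕ}

theorem sig_prime_of_T (hSmin : ∀ q ∈ Smin, q.Prime) (hPiv : IsPivotSet p ρbar Smin Piv)
    (hq : IsTWSet p ρbar (Smin ∪ Piv) n qv) :
    ∀ q ∈ Smin ∪ Piv ∪ Finset.univ.image qv, q.Prime := by
  intro q hq'
  rcases Finset.mem_union.mp hq' with h' | h'
  · rcases Finset.mem_union.mp h' with h'' | h''
    · exact hSmin q h''
    · exact (hPiv q h'').1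
  · obtain ⟨j, -, rfl⟩ := Finset.mem_image.mp h'
    exact (hq.2.1 j).1

end Sig

/-- `IAGalTStatement` is the case `Σ = Smin ∪ Piv ∪ Q`, `q = q_j` of `GalTSigStatement`. -/
theorem iaGalT_of_sig_T (hG : GalTSigStatement_T) : IAGalTStatement_T (ty := ty) := by
  intro p hpF 𝒪 _ _ _ _ _ _ ρbar Smin h Piv hPiv n r qv hq _ PQ j P hP φ hφ σ hσ a₀ w hw
    O' _ _ _ _ _ _ emb hloc hnew
  obtain ⟨hqprime, hqS, hqdvd⟩ := hq.2.1 j
  exact hG p 𝒪 ρbar Smin h ty (Smin ∪ Piv ∪ Finset.univ.image qv)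
    (sig_prime_of_T h.hSmin hPiv hq) (Finset.subset_union_left.trans Finset.subset_union_left)
    PQ (qv j) hqprime
    (Finset.mem_union_right _ (Finset.mem_image_of_mem qv (Finset.mem_univ j)))
    (fun e => hqS (Finset.mem_union_left _ e))
    (dvd_trans (dvd_pow_self p (Nat.succ_ne_zero n)) hqdvd)
    (fun P' hP' φ' hφ' => hq.2.2 j P' hP' φ' hφ')
    P hP φ hφ σ hσ a₀ w hw O' emb hloc hnew

/-- `IAGalRStatement` is the case `Σ = Smin ∪ Piv ∪ Q`, `q = q_j` of `GalRSigStatement`. -/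
theorem iaGalR_of_sig_T (hG : GalRSigStatement_T) : IAGalRStatement_T (ty := ty) := by
  intro p hpF 𝒪 _ _ _ _ _ _ ρbar Smin h Piv hPiv n r qv hq _ PQ j P hP φ hφ σ hσ u hu hcyc
    a₀ w hw O' _ _ _ _ _ _ emb hloc hnew
  obtain ⟨hqprime, hqS, hqdvd⟩ := hq.2.1 j
  exact hG p 𝒪 ρbar Smin h ty (Smin ∪ Piv ∪ Finset.univ.image qv)
    (sig_prime_of_T h.hSmin hPiv hq) (Finset.subset_union_left.trans Finset.subset_union_left)
    PQ (qv j) hqprime
    (Finset.mem_union_right _ (Finset.mem_image_of_mem qv (Finset.mem_univ j)))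
    (fun e => hqS (Finset.mem_union_left _ e))
    (dvd_trans (dvd_pow_self p (Nat.succ_ne_zero n)) hqdvd)
    (fun P' hP' φ' hφ' => hq.2.2 j P' hP' φ' hφ')
    P hP φ hφ σ hσ u hu hcyc a₀ w hw O' emb hloc hnew

/-- `S59.TW.H314.GalTStatement` is the case `Σ = Smin ∪ Q`, `q = q_j` of `GalTSigStatement`. -/
theorem galT314_of_sig_T (hG : GalTSigStatement_T) : Fermat.Agent.S59.TW.H314.GalTStatement := by
  intro p hpF 𝒪 _ _ _ _ _ _ ρbar Smin h t _ n r qv hq _ PQ j P hP φ hφ σ hσ a₀ w hw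
    O' _ _ _ _ _ _ emb hloc hnew
  obtain ⟨hqprime, hqS, hqdvd⟩ := hq.2.1 j
  have hSigP : ∀ q ∈ Smin ∪ Finset.univ.image qv, q.Prime := by
    intro q hq'
    rcases Finset.mem_union.mp hq' with h' | h'
    · exact h.hSmin q h'
    · obtain ⟨j, -, rfl⟩ := Finset.mem_image.mp h'
      exact (hq.2.1 j).1
  exact hG p 𝒪 ρbar Smin h t (Smin ∪ Finset.univ.image qv) hSigP Finset.subset_union_left
    PQ (qv j) hqprime
    (Finset.mem_union_right _ (Finset.mem_image_of_mem qv (Finset.mem_univ j)))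
    hqS (dvd_trans (dvd_pow_self p (Nat.succ_ne_zero n)) hqdvd)
    (fun P' hP' φ' hφ' => hq.2.2 j P' hP' φ' hφ')
    P hP φ hφ σ hσ a₀ w hw O' emb hloc hnew

/-- `S59.TW.H314.GalRStatement` is the case `Σ = Smin ∪ Q`, `q = q_j` of `GalRSigStatement`. -/
theorem galR314_of_sig_T (hG : GalRSigStatement_T) : Fermat.Agent.S59.TW.H314.GalRStatement := by
  intro p hpF 𝒪 _ _ _ _ _ _ ρbar Smin h t _ n r qv hq _ PQ j P hP φ hφ σ hσ u hu hcyc a₀ w hw
    O' _ _ _ _ _ _ emb hloc hnew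
  obtain ⟨hqprime, hqS, hqdvd⟩ := hq.2.1 j
  have hSigP : ∀ q ∈ Smin ∪ Finset.univ.image qv, q.Prime := by
    intro q hq'
    rcases Finset.mem_union.mp hq' with h' | h'
    · exact h.hSmin q h'
    · obtain ⟨j, -, rfl⟩ := Finset.mem_image.mp h'
      exact (hq.2.1 j).1
  exact hG p 𝒪 ρbar Smin h t (Smin ∪ Finset.univ.image qv) hSigP Finset.subset_union_left
    PQ (qv j) hqprime
    (Finset.mem_union_right _ (Finset.mem_image_of_mem qv (Finset.mem_univ j)))
    hqS (dvd_trans (dvd_pow_self p (Nat.succ_ne_zero n)) hqdvd)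
    (fun P' hP' φ' hφ' => hq.2.2 j P' hP' φ' hφ')
    P hP φ hφ σ hσ u hu hcyc a₀ w hw O' emb hloc hnew

end Fermat.Agent.S38.IA.Hecke.H183
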