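import Fermat.Agent.S38T.IA.Hecke.Spec3
import Fermat.Agent.S38T.IA.Hecke.H183.CmpSigIA
import Fermat.Agent.S59.TW.H788.GalRGen

/-!
# Row HARD, cell HECKE, layer 4: the leaf IA-GAL-R  (helper183, on helper788's general core)

* `galRSig_of : S36Statement → GalRSigStatement` — GAL-R for a package of ANY type `Σ`
  (`S59.TW.H788.galR_datum788`).
* `iaGalR_of : S36Statement → IAGalRStatement` — the leaf IA-GAL-R of `CmpSpecIA.lean`
  (`Σ = Smin ∪ Piv ∪ Q`).
-/

set_option autoImplicit false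
set_option linter.style.haveILetI false
set_option linter.unusedVariables false

open Polynomial IsLocalRing CongruenceSubgroup
open scoped MatrixGroups

namespace Fermat.Agent.S38.IA.Hecke.H183

variable {ty : Fermat.Agent.S59.Arch.PType}

open Fermat.Agent.S59.Arch Fermat.Agent.S59.TW.H959 Fermat.Agent.S59.TW Fermat.Agent.S59.H765
open Fermat.Agent.S59.TW.H653 Fermat.Agent.S59.TW.Aut
open Fermat.Agent.S38.IA Fermat.Agent.S38.IA.Hecke
open CuspForm

/-- **GAL-R for a package of any type `Σ`**, from the frozen S36. -/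
theorem galRSig_of_T (h36 : Fermat.Agent.S58.S36Statement) : GalRSigStatement_T := by
  intro p hpF 𝒪 _ _ _ _ _ _ ρbar Smin h t Sig hSig hSminSig _ PQ q hq hqSig hqS hpq hdist
    P hP φ hφ σ hσ u hu hcyc a₀ w hw O' _ _ _ _ _ _ emb hemb hnew
  classical
  obtain ⟨M, hM0, g, hg, hfact, hMS, chig, iota, hchig, hcompat⟩ := hnew
  haveI := hM0
  have hp : p.Prime := hpF.out
  have hqp : q ≠ p := fun e => hqS (e ▸ h.hpSmin)
  have hunr : PQ.H.ρ.residual.IsUnramifiedAt q := by
    have h1 : ρbar.IsUnramifiedAt q := by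
      by_contra hcon
      exact hqS ((h.hmin q hq hqp).mpr hcon)
    obtain ⟨e⟩ := PQ.hres
    intro B hB τ hτ
    have h2 : (ρbar.baseChangeAlong (ResidueField.map (algebraMap 𝒪 PQ.T))).ρ τ = 1 := by
      letI : Algebra (ResidueField 𝒪) (ResidueField PQ.T) :=
        (ResidueField.map (algebraMap 𝒪 PQ.T)).toAlgebra
      show (ρbar.ρ τ).baseChange (ResidueField PQ.T) = 1
      rw [h1 B hB τ hτ]
      exact LinearMap.baseChange_one _ _
    refine LinearMap.ext fun x => ?_
    apply e.toLinearEquiv.injective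
    rw [e.map_apply, h2]
    rfl
  have hNS : ∀ q' : ℕ, q'.Prime → q' ∣ wilesLevel p t Smin Sig → q' ∈ Sig := fun q' hq' hqd =>
    mem_of_prime_dvd_wilesLevel hp h.hSmin hSig h.hpSmin hSminSig q' hq' hqd
  exact Fermat.Agent.S59.TW.H788.galR_datum788 h36 p h.hp2 𝒪 h.hp𝒪 (wilesLevel p t Smin Sig) Sig
    (hSminSig h.hpSmin) hNS PQ.θ PQ.T PQ.H q hq hpq hunr P hP φ hφ σ hσ u hu hcyc a₀ w hw
    O' emb hemb M g hg hfact hMS chig hchig iota hcompat

/-- **IA-GAL-R** (leaf of `CmpSpecIA.lean`), from the frozen S36. -/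
theorem iaGalR_of_T (h36 : Fermat.Agent.S58.S36Statement) : IAGalRStatement_T (ty := ty) :=
  iaGalR_of_sig_T (galRSig_of_T h36)

end Fermat.Agent.S38.IA.Hecke.H183
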